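/-
DS-4 (helper4), file 1: **the black-box input of the residual representations**.

`DsvGamma1Res` is the "form shape" of the final deliverable (Γ₁-RES) of the `T1G` package:
let `g ∈ S₂(Γ₁(M))` (`5 ≤ M`, `4 ∣ M` or `9 ∣ M`) have character `χ` and `q`-coefficients
`c n ∈ ℤ̄ := integralClosure ℤ ℂ`; let `ℓ` be a prime and `r := dslRed ℓ : ℤ̄ →+* DslRes ℓ` the
reduction map.  If `r (c 1) ≠ 0` and `g` is an eigenvector modulo `r` of the Hecke operators `T_p`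
(`p ∤ M`, `p ≠ ℓ`) with eigenvalues `abar p`, i.e.
`r (a_{pn}(g) + p χ(p) [p ∣ n] a_{n/p}(g)) = abar p * r (a_n(g))`  (`= r (a_n (T_p g))`),
then there is a field `k'` with an embedding `j : k' →+* DslRes ℓ` and a representation
`ρbar : G_ℚ → GL₂(k')` of finite level, unramified at the primes `p ∤ M ℓ`, with
`j (tr ρbar(Frob_p)) = abar p` and `j (det ρbar(Frob_p)) = p * r (χ p)`.

(Neither finiteness of `k'` nor semisimplicity of `ρbar` is asked: the consumer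
`Lib/DS/Res/...` descends to `𝔽_ℓ` and semisimplifies there.)
-/
import Mathlib
import Fermat.Agent.Lib.DS.Final.Defs
import Fermat.Agent.Lib.DS.Hecke.Forms

set_option autoImplicit false

open CongruenceSubgroup ModularFormClass Matrix

namespace Fermat.Agent.DS

local notation "Qbar" => AlgebraicClosure ℚ
local notation "GQ" => (AlgebraicClosure ℚ ≃ₐ[ℚ] AlgebraicClosure ℚ)

/-- **(Γ₁-RES), form shape**: residual Galois representations attached to the weight-`2` cusp forms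
on `Γ₁(M)` with character which are Hecke eigenvectors modulo a prime above `ℓ`. -/
def DsvGamma1Res : Prop :=
  ∀ (M : ℕ) [NeZero M], 5 ≤ M → (4 ∣ M ∨ 9 ∣ M) → ∀ (ℓ : ℕ) [Fact ℓ.Prime]
    (χ : DirichletCharacter ℂ M) (g : CuspForm (Gamma1 M) 2)
    (c : ℕ → integralClosure ℤ ℂ) (x : ZMod M → integralClosure ℤ ℂ) (abar : ℕ → DslRes ℓ),
    (∀ d : (ZMod M)ˣ, dshDiamond 2 M d g = χ (d : ZMod M) • g) →
    (∀ n : ℕ, (c n : ℂ) = qCoeff g n) →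
    (∀ d : ZMod M, (x d : ℂ) = χ d) →
    dslRed ℓ (c 1) ≠ 0 →
    (∀ p : ℕ, p.Prime → ¬ p ∣ M → p ≠ ℓ → ∀ n : ℕ,
      dslRed ℓ (c (p * n) + (p : integralClosure ℤ ℂ) * x (p : ZMod M) *
          (if p ∣ n then c (n / p) else 0)) = abar p * dslRed ℓ (c n)) →
    ∃ (k' : Type) (_ : Field k') (j : k' →+* DslRes ℓ) (ρbar : GQ →* GL (Fin 2) k'),
      GaloisFactorsThroughFiniteLevel ρbar ∧
      ∀ p : ℕ, p.Prime → ¬ p ∣ M → p ≠ ℓ → ∀ A : ValuationSubring Qbar, A.LiesOverPrime p →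
        (∀ σ ∈ A.inertiaSubgroupIn ℚ, ρbar σ = 1) ∧
        ∀ σ : GQ, A.IsFrobeniusAt σ p →
          j ((ρbar σ : GL (Fin 2) k') : Matrix (Fin 2) (Fin 2) k').trace = abar p ∧
          j ((ρbar σ : GL (Fin 2) k') : Matrix (Fin 2) (Fin 2) k').det =
            (p : DslRes ℓ) * dslRed ℓ (x (p : ZMod M))

/-- **DS-4 part 1, the product `g = f₀ · G_ℓ`**: let `f₀ ∈ S₁(Γ₁(M₀))` have character `ε₀` and
`q`-coefficients `c₀ n ∈ ℤ̄`, and let `ℓ ≥ 5` be a prime not dividing `M₀`.  Multiplying `f₀` by the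
weight-one Eisenstein series `G_ℓ ∈ M₁(Γ₁(ℓ), ψ)` (`ψ` the inverse Teichmüller character for
`r := dslRed ℓ`, so `p * r (ψ p) = 1`; constant term `≡ -1`, higher coefficients `≡ 0` modulo `r`)
gives `g ∈ S₂(Γ₁(M₀ ℓ))` with character `χ = ε₀ ψ`, coefficients `c n ∈ ℤ̄`, `r (c n) = - r (c₀ n)`
and `p * r (χ p) = r (ε₀ p)` for the primes `p ∤ M₀ ℓ`. -/
def DsvProduct : Prop :=
  ∀ (M₀ : ℕ) [NeZero M₀] (ε₀ : DirichletCharacter ℂ M₀) (f₀ : CuspForm (Gamma1 M₀) 1)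
    (c₀ : ℕ → integralClosure ℤ ℂ),
    (∀ d : (ZMod M₀)ˣ, dshDiamond 1 M₀ d f₀ = ε₀ (d : ZMod M₀) • f₀) →
    (∀ n : ℕ, (c₀ n : ℂ) = qCoeff f₀ n) →
    ∀ (ℓ : ℕ) [Fact ℓ.Prime] [NeZero (M₀ * ℓ)], 5 ≤ ℓ → ¬ ℓ ∣ M₀ →
    ∃ (χ : DirichletCharacter ℂ (M₀ * ℓ)) (g : CuspForm (Gamma1 (M₀ * ℓ)) 2)
      (c : ℕ → integralClosure ℤ ℂ) (x : ZMod (M₀ * ℓ) → integralClosure ℤ ℂ),
      (∀ d : (ZMod (M₀ * ℓ))ˣ, dshDiamond 2 (M₀ * ℓ) d g = χ (d : ZMod (M₀ * ℓ)) • g) ∧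
      (∀ n : ℕ, (c n : ℂ) = qCoeff g n) ∧
      (∀ d : ZMod (M₀ * ℓ), (x d : ℂ) = χ d) ∧
      (∀ n : ℕ, dslRed ℓ (c n) = - dslRed ℓ (c₀ n)) ∧
      ∀ p : ℕ, p.Prime → ¬ p ∣ M₀ * ℓ → ∀ e₀ : integralClosure ℤ ℂ,
        (e₀ : ℂ) = ε₀ (p : ZMod M₀) →
        (p : DslRes ℓ) * dslRed ℓ (x (p : ZMod (M₀ * ℓ))) = dslRed ℓ e₀

end Fermat.Agent.DS
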