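/-
DS-4 (helper4), file 5: **the inverse Teichmüller character** for the reduction map
`dslRed ℓ : ℤ̄ →+* DslRes ℓ`: an odd Dirichlet character `ψ` modulo `ℓ` with values in `ℤ̄` such that
`r (ψ a) * a = 1` for all `a ∈ (ℤ/ℓ)ˣ`.  (The reduction of a primitive `(ℓ-1)`-th root of unity is
again primitive because it is a root of the cyclotomic polynomial and `ℓ - 1` is invertible.)
-/
import Mathlib
import Fermat.Agent.Lib.DS.Lift.Red

set_option autoImplicit false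
set_option linter.style.haveILetI false

open Polynomial

namespace Fermat.Agent.DS

/-- the values of a Dirichlet character are algebraic integers -/
theorem dsv_isIntegral_dirichlet {N : ℕ} [NeZero N] (χ : DirichletCharacter ℂ N) (a : ZMod N) :
    IsIntegral ℤ (χ a) := by
  by_cases ha : IsUnit a
  · obtain ⟨u, rfl⟩ := ha
    have h1 : χ (u : ZMod N) ^ N.totient = 1 := by
      rw [← map_pow, ← Units.val_pow_eq_pow_val, ZMod.pow_totient, Units.val_one, map_one]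
    exact IsIntegral.of_pow (Nat.totient_pos.mpr (Nat.pos_of_ne_zero (NeZero.ne N)))
      (h1 ▸ isIntegral_one)
  · rw [MulChar.map_nonunit χ ha]
    exact isIntegral_zero

/-- in characteristic `ℓ` the cast of `a.val` is the image of `a` -/
theorem dsv_natCast_val (ℓ : ℕ) [Fact ℓ.Prime] (a : ZMod ℓ) :
    ((a.val : ℕ) : DslRes ℓ) = dslResMap ℓ a := by
  conv_rhs => rw [← ZMod.natCast_zmod_val a]
  rw [map_natCast]




/-- the reduction of a primitive `(ℓ-1)`-th root of unity is a primitive `(ℓ-1)`-th root of unity -/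
theorem dsv_isPrimitiveRoot_red (ℓ : ℕ) [Fact ℓ.Prime] (hℓ : 3 ≤ ℓ) (ζ : integralClosure ℤ ℂ)
    (hζ : IsPrimitiveRoot ζ (ℓ - 1)) : IsPrimitiveRoot (dslRed ℓ ζ) (ℓ - 1) := by
  have hn : 0 < ℓ - 1 := by omega
  haveI : NeZero (((ℓ - 1 : ℕ)) : DslRes ℓ) := by
    refine ⟨?_⟩
    rw [Nat.cast_pred (by omega), dslRes_natCast_self, zero_sub]
    exact neg_ne_zero.mpr one_ne_zero
  have h1 : (cyclotomic (ℓ - 1) (integralClosure ℤ ℂ)).IsRoot ζ :=
    (isRoot_cyclotomic_iff_charZero hn).mpr hζ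
  have h2 := h1.map (f := dslRed ℓ)
  rw [map_cyclotomic] at h2
  exact isRoot_cyclotomic_iff.mp h2

/-- **the inverse Teichmüller character** -/
theorem dsv_teich (ℓ : ℕ) [Fact ℓ.Prime] (hℓ : 3 ≤ ℓ) :
    ∃ (ψ : DirichletCharacter ℂ ℓ) (y : ZMod ℓ → integralClosure ℤ ℂ),
      ψ (-1) = -1 ∧ (∀ a : ZMod ℓ, (y a : ℂ) = ψ a) ∧
      ∀ a : (ZMod ℓ)ˣ, dslRed ℓ (y (a : ZMod ℓ)) * (((a : ZMod ℓ).val : ℕ) : DslRes ℓ) = 1 := by
  classical
  have hℓp : ℓ.Prime := Fact.out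
  have hn : 0 < ℓ - 1 := by omega
  haveI : NeZero (ℓ - 1) := ⟨by omega⟩
  -- a primitive root of unity in `ℂ`, as an algebraic integer
  have hζc : IsPrimitiveRoot (Complex.exp (2 * Real.pi * Complex.I / ((ℓ - 1 : ℕ) : ℂ))) (ℓ - 1) :=
    Complex.isPrimitiveRoot_exp (ℓ - 1) (by omega)
  set ζc : ℂ := Complex.exp (2 * Real.pi * Complex.I / ((ℓ - 1 : ℕ) : ℂ)) with hζcdef
  let ζ : integralClosure ℤ ℂ := ⟨ζc, hζc.isIntegral hn⟩
  have hζ : IsPrimitiveRoot ζ (ℓ - 1) := by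
    have : IsPrimitiveRoot ((integralClosure ℤ ℂ).val ζ) (ℓ - 1) := hζc
    exact (IsPrimitiveRoot.map_iff_of_injective (f := (integralClosure ℤ ℂ).val)
      Subtype.val_injective).mp this
  have hrζ := dsv_isPrimitiveRoot_red ℓ hℓ ζ hζ
  -- a generator of `(ZMod ℓ)ˣ`
  obtain ⟨g, hg⟩ := IsCyclic.exists_generator (α := (ZMod ℓ)ˣ)
  have hog : orderOf g = ℓ - 1 := by
    rw [orderOf_eq_card_of_forall_mem_zpowers hg, Nat.card_eq_fintype_card, ZMod.card_units]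
  -- the image of `g⁻¹` is a power of the reduction of `ζ`
  have hw : (dslResMap ℓ ((g⁻¹ : (ZMod ℓ)ˣ) : ZMod ℓ)) ^ (ℓ - 1) = 1 := by
    rw [← map_pow, ← Units.val_pow_eq_pow_val, inv_pow, ← hog, pow_orderOf_eq_one, inv_one,
      Units.val_one, map_one]
  obtain ⟨i, -, hi⟩ := hrζ.eq_pow_of_pow_eq_one hw
  -- the character
  have hζc0 : ζc ≠ 0 := hζc.ne_zero (by omega)
  let z : ℂˣ := (Units.mk0 ζc hζc0) ^ i
  have hzord : orderOf z ∣ orderOf g := by
    rw [hog]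
    apply orderOf_dvd_of_pow_eq_one
    apply Units.ext
    simp only [z, Units.val_pow_eq_pow_val, Units.val_mk0, Units.val_one]
    rw [← pow_mul, mul_comm, pow_mul, hζc.pow_eq_one, one_pow]
  let ψ₀ : (ZMod ℓ)ˣ →* ℂˣ := monoidHomOfForallMemZpowers hg hzord
  have hψ₀g : ψ₀ g = z := monoidHomOfForallMemZpowers_apply_gen hg hzord
  let ψ : DirichletCharacter ℂ ℓ := MulChar.ofUnitHom ψ₀
  have hψu : ∀ a : (ZMod ℓ)ˣ, ψ (a : ZMod ℓ) = ((ψ₀ a : ℂˣ) : ℂ) := fun a =>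
    MulChar.ofUnitHom_coe ψ₀ a
  let y : ZMod ℓ → integralClosure ℤ ℂ := fun a => ⟨ψ a, dsv_isIntegral_dirichlet ψ a⟩
  -- the key property
  have hkey : ∀ a : (ZMod ℓ)ˣ,
      dslRed ℓ (y (a : ZMod ℓ)) = dslResMap ℓ ((a⁻¹ : (ZMod ℓ)ˣ) : ZMod ℓ) := by
    intro a
    obtain ⟨m, hm⟩ := (mem_powers_iff_mem_zpowers.mpr (hg a))
    have hya : y (a : ZMod ℓ) = ζ ^ (i * m) := by
      apply Subtype.ext
      show ψ (a : ZMod ℓ) = ((ζ ^ (i * m) : integralClosure ℤ ℂ) : ℂ)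
      rw [hψu, ← hm, map_pow, hψ₀g]
      simp only [z, Units.val_pow_eq_pow_val, Units.val_mk0]
      rw [← pow_mul]
      rfl
    rw [hya, map_pow, pow_mul, hi, ← map_pow, ← Units.val_pow_eq_pow_val, inv_pow]
    rw [show g ^ m = a from hm]
  refine ⟨ψ, y, ?_, fun a => rfl, fun a => ?_⟩
  · -- `ψ (-1) = -1`
    have h1 : ψ (-1) * ψ (-1) = 1 := by
      rw [← map_mul, neg_mul_neg, one_mul, map_one]
    have h2 : ψ (-1) ≠ 1 := by
      intro h
      have h3 := hkey (-1)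
      have h4 : y ((-1 : (ZMod ℓ)ˣ) : ZMod ℓ) = 1 := by
        apply Subtype.ext
        show ψ ((-1 : (ZMod ℓ)ˣ) : ZMod ℓ) = 1
        rw [Units.val_neg, Units.val_one]; exact h
      rw [h4, map_one, inv_neg, inv_one, Units.val_neg, Units.val_one, map_neg, map_one] at h3
      -- `1 = -1` in characteristic `ℓ ≥ 3`
      have h5 : (2 : DslRes ℓ) = 0 := by linear_combination h3
      have h6 : ((2 : ℕ) : DslRes ℓ) = 0 := by exact_mod_cast h5
      rw [CharP.cast_eq_zero_iff (DslRes ℓ) ℓ] at h6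
      have := Nat.le_of_dvd (by norm_num) h6
      omega
    have h3 : (ψ (-1) - 1) * (ψ (-1) + 1) = 0 := by linear_combination h1
    rcases mul_eq_zero.mp h3 with h | h
    · exact absurd (sub_eq_zero.mp h) h2
    · exact eq_neg_of_add_eq_zero_left h
  · rw [hkey a, dsv_natCast_val, ← map_mul, ← Units.val_mul, inv_mul_cancel, Units.val_one, map_one]

end Fermat.Agent.DS
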