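/-
DS-4 (helper4), file 6: **the product `g = f₀ · G_ℓ`** (`DsvProduct`, DS-4 part 1) from the DS-E black
box `DsvEis` (the weight-one Eisenstein series `G` of an odd character `ψ` modulo `ℓ`:
`G∣γ = ψ(d_γ) G` on `Γ₀(ℓ)`, `a_0 = ∑ ψ(j) j`, `a_n = -2ℓ ∑_{d∣n} ψ(d)`) applied to the inverse
Teichmüller character (`dsv_teich`): `r(a_0(G)) = ℓ - 1 = -1`, `r(a_n(G)) = 0`, hence
`r(a_n(f₀ G)) = -r(a_n(f₀))`; `χ = ε₀ ψ` and `p r(ψ p) = 1`.
-/
import Mathlib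
import Fermat.Agent.Lib.DS.Res.Defs
import Fermat.Agent.Lib.DS.Res.Teich
import Fermat.Agent.Lib.DS.Rat.Mul

set_option autoImplicit false
set_option linter.style.haveILetI false

open CongruenceSubgroup ModularFormClass UpperHalfPlane Matrix
open scoped MatrixGroups ModularForm

namespace Fermat.Agent.DS



/-- `Γ₀(M) ≤ Γ₀(N)` for `N ∣ M` -/
theorem dsv_Gamma0_of_dvd {N M : ℕ} (hNM : N ∣ M) {γ : SL(2, ℤ)} (hγ : γ ∈ Gamma0 M) :
    γ ∈ Gamma0 N := by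
  rw [Gamma0_mem] at hγ ⊢
  rw [ZMod.intCast_zmod_eq_zero_iff_dvd] at hγ ⊢
  exact (Int.natCast_dvd_natCast.mpr hNM).trans hγ

/-- the lower right entry modulo a divisor of the level -/
theorem dsv_dshD_cast {N M : ℕ} [NeZero M] (hNM : N ∣ M) (γ : SL(2, ℤ)) :
    ZMod.cast (dshD M γ) = dshD N γ := by
  rw [dshD, dshD, ZMod.cast_intCast hNM]

/-- the value of a lifted character at a unit -/
theorem dsv_changeLevel_unit {N M : ℕ} [NeZero N] [NeZero M] (hNM : N ∣ M)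
    (ε : DirichletCharacter ℂ N) (u : (ZMod M)ˣ) :
    (DirichletCharacter.changeLevel hNM ε) (u : ZMod M) = ε (ZMod.cast (u : ZMod M)) := by
  rw [DirichletCharacter.changeLevel_eq_cast_of_dvd ε hNM u]

/-- **DS-E black box**: the weight-one Eisenstein series attached to an odd character modulo `ℓ` -/
def DsvEis : Prop :=
  ∀ (ℓ : ℕ) [Fact ℓ.Prime] (ψ : DirichletCharacter ℂ ℓ), ψ (-1) = -1 →
    ∃ G : ModularForm (Gamma1 ℓ) 1,
      (∀ γ ∈ Gamma0 ℓ, (⇑G : ℍ → ℂ) ∣[(1 : ℤ)] γ = ψ (((γ 1 1 : ℤ)) : ZMod ℓ) • (⇑G : ℍ → ℂ)) ∧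
      qCoeff G 0 = ∑ j ∈ Finset.range ℓ, ψ (j : ZMod ℓ) * (j : ℂ) ∧
      ∀ n : ℕ, 1 ≤ n → qCoeff G n = -(2 * (ℓ : ℂ)) * ∑ d ∈ n.divisors, ψ (d : ZMod ℓ)


/-- `r (ψ p) * p = 1` for a prime `p ≠ ℓ` -/
theorem dsv_teich_prime (ℓ : ℕ) [Fact ℓ.Prime] (y : ZMod ℓ → integralClosure ℤ ℂ)
    (hteich : ∀ a : (ZMod ℓ)ˣ,
      dslRed ℓ (y (a : ZMod ℓ)) * (((a : ZMod ℓ).val : ℕ) : DslRes ℓ) = 1)
    {p : ℕ} (hp : p.Prime) (hpℓ : p ≠ ℓ) :
    (p : DslRes ℓ) * dslRed ℓ (y (p : ZMod ℓ)) = 1 := by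
  have hcop : p.Coprime ℓ := (Nat.coprime_primes hp (Fact.out : ℓ.Prime)).mpr hpℓ
  have h := hteich (ZMod.unitOfCoprime p hcop)
  rw [ZMod.coe_unitOfCoprime, dsv_natCast_val, map_natCast] at h
  rw [mul_comm]; exact h

/-- the reduction of `S_ψ = ∑ ψ(j) j` is `-1` -/
theorem dsv_red_sum (ℓ : ℕ) [Fact ℓ.Prime] (y : ZMod ℓ → integralClosure ℤ ℂ)
    (hteich : ∀ a : (ZMod ℓ)ˣ,
      dslRed ℓ (y (a : ZMod ℓ)) * (((a : ZMod ℓ).val : ℕ) : DslRes ℓ) = 1) :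
    dslRed ℓ (∑ j ∈ Finset.range ℓ, y (j : ZMod ℓ) * (j : integralClosure ℤ ℂ)) = -1 := by
  have hℓ : ℓ.Prime := Fact.out
  rw [map_sum]
  have h1 : ∀ j ∈ Finset.range ℓ,
      dslRed ℓ (y (j : ZMod ℓ) * (j : integralClosure ℤ ℂ)) = if j = 0 then 0 else 1 := by
    intro j hj
    by_cases hj0 : j = 0
    · rw [if_pos hj0, hj0]; simp
    · rw [if_neg hj0, map_mul, map_natCast]
      have hjℓ : j < ℓ := Finset.mem_range.mp hj
      have hcop : j.Coprime ℓ := by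
        rw [Nat.coprime_comm]
        exact (Nat.Prime.coprime_iff_not_dvd hℓ).mpr fun h =>
          hj0 (Nat.eq_zero_of_dvd_of_lt h hjℓ)
      have h := hteich (ZMod.unitOfCoprime j hcop)
      rw [ZMod.coe_unitOfCoprime, ZMod.val_natCast_of_lt hjℓ] at h
      exact h
  rw [Finset.sum_congr rfl h1, Finset.sum_ite, Finset.sum_const_zero, zero_add, Finset.sum_const,
    nsmul_eq_mul, mul_one]
  have h2 : (Finset.range ℓ).filter (fun j => ¬ j = 0) = (Finset.range ℓ).erase 0 := by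
    ext j; simp [Finset.mem_erase, and_comm]
  rw [h2, Finset.card_erase_of_mem (Finset.mem_range.mpr hℓ.pos), Finset.card_range,
    Nat.cast_pred hℓ.pos, dslRes_natCast_self, zero_sub]

/-- **DS-4 part 1**: the product of a weight-one cusp form with the weight-one Eisenstein series
attached to the inverse Teichmüller character -/
theorem dsv_product (hE : DsvEis) : DsvProduct := by
  classical
  intro M₀ _ ε₀ f₀ c₀ hε₀ hc₀ ℓ _ _ h5 hℓM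
  have hℓp : ℓ.Prime := Fact.out
  haveI : NeZero ℓ := ⟨hℓp.ne_zero⟩
  obtain ⟨ψ, y, hψ, hy, hteich⟩ := dsv_teich ℓ (by omega)
  obtain ⟨G, hGsl, hG0, hGn⟩ := hE ℓ ψ hψ
  have h₁ : M₀ ∣ M₀ * ℓ := Dvd.intro ℓ rfl
  have h₂ : ℓ ∣ M₀ * ℓ := Dvd.intro_left M₀ rfl
  set χ : DirichletCharacter ℂ (M₀ * ℓ) :=
    DirichletCharacter.changeLevel h₁ ε₀ * DirichletCharacter.changeLevel h₂ ψ with hχdef
  let g : CuspForm (Gamma1 (M₀ * ℓ)) 2 :=
    dsqMul₂ (dshLevelIncl 1 h₁ f₀) (dsqModLevelIncl 1 h₂ G)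
  have hgcoe : (⇑g : ℍ → ℂ) = ⇑f₀ * ⇑G := rfl
  -- the coefficients of `G` as algebraic integers
  let cG : ℕ → integralClosure ℤ ℂ := fun n =>
    if n = 0 then ∑ j ∈ Finset.range ℓ, y (j : ZMod ℓ) * (j : integralClosure ℤ ℂ)
    else -(2 * (ℓ : integralClosure ℤ ℂ)) * ∑ d ∈ n.divisors, y (d : ZMod ℓ)
  have hcG : ∀ n, (cG n : ℂ) = qCoeff G n := by
    intro n
    by_cases hn : n = 0
    · simp only [cG, if_pos hn]
      rw [hn, hG0]
      push_cast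
      exact Finset.sum_congr rfl fun j _ => by rw [hy]
    · simp only [cG, if_neg hn]
      rw [hGn n (Nat.one_le_iff_ne_zero.mpr hn)]
      push_cast
      congr 1
      exact Finset.sum_congr rfl fun j _ => hy _
  have hrG0 : dslRed ℓ (cG 0) = -1 := by
    simp only [cG, if_pos rfl]
    exact dsv_red_sum ℓ y hteich
  have hrGn : ∀ n, n ≠ 0 → dslRed ℓ (cG n) = 0 := by
    intro n hn
    simp only [cG, if_neg hn]
    rw [map_mul, map_neg, map_mul, map_natCast, dslRes_natCast_self, mul_zero, neg_zero, zero_mul]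
  -- the coefficients of `g`
  let c : ℕ → integralClosure ℤ ℂ := fun n =>
    ∑ ij ∈ Finset.HasAntidiagonal.antidiagonal n, c₀ ij.1 * cG ij.2
  have hc : ∀ n, (c n : ℂ) = qCoeff g n := by
    intro n
    have h := qCoeff_dsqMul₂ (dshLevelIncl 1 h₁ f₀) (dsqModLevelIncl 1 h₂ G) n
    rw [coe_dshLevelIncl, coe_dsqModLevelIncl] at h
    rw [show qCoeff (⇑g) n = _ from h]
    simp only [c]
    push_cast
    exact Finset.sum_congr rfl fun ij _ => by rw [hc₀, hcG]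
  have hrc : ∀ n, dslRed ℓ (c n) = - dslRed ℓ (c₀ n) := by
    intro n
    simp only [c]
    rw [map_sum, Finset.sum_eq_single (n, 0)]
    · rw [map_mul, hrG0, mul_neg, mul_one]
    · rintro ⟨i, j⟩ hij hne
      have hj : j ≠ 0 := by
        rintro rfl
        apply hne
        have := Finset.HasAntidiagonal.mem_antidiagonal.mp hij
        simp only [add_zero] at this
        rw [this]
      rw [map_mul, hrGn j hj, mul_zero]
    · intro h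
      exact absurd (Finset.HasAntidiagonal.mem_antidiagonal.mpr (add_zero n)) h
  -- the character values
  let x : ZMod (M₀ * ℓ) → integralClosure ℤ ℂ := fun d => ⟨χ d, dsv_isIntegral_dirichlet χ d⟩
  refine ⟨χ, g, c, x, ?_, hc, fun d => rfl, hrc, ?_⟩
  · -- the diamond operators
    intro d
    refine DFunLike.coe_injective ?_
    set γ := dshGammaU (M₀ * ℓ) d with hγdef
    have hγ : γ ∈ Gamma0 (M₀ * ℓ) := dshGammaU_mem (M₀ * ℓ) d
    have hγD : dshD (M₀ * ℓ) γ = (d : ZMod (M₀ * ℓ)) := dshD_dshGammaU (M₀ * ℓ) d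
    have hγ₁ : γ ∈ Gamma0 M₀ := dsv_Gamma0_of_dvd h₁ hγ
    have hγ₂ : γ ∈ Gamma0 ℓ := dsv_Gamma0_of_dvd h₂ hγ
    have e1 : (⇑f₀ : ℍ → ℂ) ∣[(1 : ℤ)] γ = ε₀ (ZMod.cast (d : ZMod (M₀ * ℓ))) • (⇑f₀ : ℍ → ℂ) := by
      have h3 := coe_dshDiamond_eq (ZMod.unitsMap h₁ d) f₀ hγ₁ (by
        rw [ZMod.unitsMap_def, Units.coe_map, ← dsv_dshD_cast h₁ γ, hγD]
        rfl)
      rw [← h3, hε₀ (ZMod.unitsMap h₁ d), ZMod.unitsMap_def, Units.coe_map]
      rfl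
    have e2 : (⇑G : ℍ → ℂ) ∣[(1 : ℤ)] γ = ψ (ZMod.cast (d : ZMod (M₀ * ℓ))) • (⇑G : ℍ → ℂ) := by
      rw [hGsl γ hγ₂]
      have : (((γ 1 1 : ℤ)) : ZMod ℓ) = ZMod.cast (d : ZMod (M₀ * ℓ)) := by
        rw [← hγD]
        exact (dsv_dshD_cast h₂ γ).symm
      rw [this]
    rw [coe_dshDiamond, FunLike.coe_smul, hgcoe]
    have e3 : ((⇑f₀ : ℍ → ℂ) * ⇑G) ∣[(2 : ℤ)] γ
        = ((⇑f₀ : ℍ → ℂ) ∣[(1 : ℤ)] γ) * ((⇑G : ℍ → ℂ) ∣[(1 : ℤ)] γ) :=
      ModularForm.mul_slash_SL2 1 1 γ _ _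
    rw [← hγdef, e3, e1, e2, hχdef, MulChar.mul_apply, dsv_changeLevel_unit h₁ ε₀ d,
      dsv_changeLevel_unit h₂ ψ d]
    funext τ
    simp only [Pi.mul_apply, Pi.smul_apply, smul_eq_mul]
    ring
  · -- the determinant
    intro p hp hpM e₀ he₀
    have hpℓ : p ≠ ℓ := fun h => hpM (h ▸ h₂)
    have hpunit : IsUnit ((p : ℕ) : ZMod (M₀ * ℓ)) :=
      (ZMod.isUnit_iff_coprime p (M₀ * ℓ)).mpr ((Nat.Prime.coprime_iff_not_dvd hp).mpr hpM)
    obtain ⟨u, hu⟩ := hpunit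
    have hx : x ((p : ℕ) : ZMod (M₀ * ℓ)) = e₀ * y ((p : ℕ) : ZMod ℓ) := by
      apply Subtype.ext
      show χ ((p : ℕ) : ZMod (M₀ * ℓ)) = (e₀ : ℂ) * (y ((p : ℕ) : ZMod ℓ) : ℂ)
      rw [hχdef, MulChar.mul_apply, ← hu, dsv_changeLevel_unit h₁ ε₀ u,
        dsv_changeLevel_unit h₂ ψ u, hu, ZMod.cast_natCast h₁, ZMod.cast_natCast h₂, he₀, hy]
    rw [hx, map_mul, mul_left_comm, dsv_teich_prime ℓ y hteich hp hpℓ, mul_one]

end Fermat.Agent.DS
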