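/-
DS-4 (helper4), file 2: **semisimplification of two-dimensional representations**.  If the image of
`ρ : G → GL₂(K)` is not semisimple it has a stable line `K v`, `ρ(g) v = c(g) v`, and
`g ↦ diag(c(g), det ρ(g) / c(g))` has the same traces and determinants.
-/
import Mathlib
import Fermat.Agent.Lib.DS.Group.Bridge

set_option autoImplicit false

open Matrix

namespace Fermat.Agent.DS


/-- **semisimplification** of a two-dimensional representation: same traces and determinants,
trivial on the kernel, semisimple image -/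
theorem dsv_semisimplify {G : Type*} [Group G] {K : Type*} [Field K] (ρ : G →* GL (Fin 2) K) :
    ∃ ρ' : G →* GL (Fin 2) K, DsgSemisimple ρ'.range ∧
      (∀ g, ((ρ' g : GL (Fin 2) K) : Matrix (Fin 2) (Fin 2) K).trace
          = ((ρ g : GL (Fin 2) K) : Matrix (Fin 2) (Fin 2) K).trace ∧
        ((ρ' g : GL (Fin 2) K) : Matrix (Fin 2) (Fin 2) K).det
          = ((ρ g : GL (Fin 2) K) : Matrix (Fin 2) (Fin 2) K).det) ∧
      ∀ g, ρ g = 1 → ρ' g = 1 := by
  classical
  by_cases hss : DsgSemisimple ρ.range
  · exact ⟨ρ, hss, fun g => ⟨rfl, rfl⟩, fun g h => h⟩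
  -- a stable line
  rw [DsgSemisimple] at hss
  push Not at hss
  obtain ⟨x, hx, -⟩ := hss
  induction x using Projectivization.ind with
  | h v hv =>
  have hc : ∀ g : G, ∃ c : K, ((ρ g : GL (Fin 2) K) : Matrix (Fin 2) (Fin 2) K) *ᵥ v = c • v :=
    fun g => (dsg_smul_mk_eq_iff (ρ g) v hv).mp (hx (ρ g) ⟨g, rfl⟩)
  choose c hc using hc
  have hinj : Function.Injective fun a : K => a • v := smul_left_injective K hv
  have hdet0 : ∀ g : G, ((ρ g : GL (Fin 2) K) : Matrix (Fin 2) (Fin 2) K).det ≠ 0 := fun g =>
    ((Matrix.isUnit_iff_isUnit_det _).mp (ρ g).isUnit).ne_zero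
  have hroot : ∀ g : G, c g ^ 2 - ((ρ g : GL (Fin 2) K) : Matrix (Fin 2) (Fin 2) K).trace * c g
      + ((ρ g : GL (Fin 2) K) : Matrix (Fin 2) (Fin 2) K).det = 0 := fun g =>
    dsg_eigenvalue_root _ (c g) v hv (hc g)
  have hc0 : ∀ g : G, c g ≠ 0 := by
    intro g h0
    have := hroot g
    rw [h0] at this
    simp at this
    exact hdet0 g this
  have hc1 : c 1 = 1 := by
    apply hinj
    show c 1 • v = (1 : K) • v
    rw [← hc 1, map_one, Units.val_one, Matrix.one_mulVec, one_smul]
  have hcmul : ∀ g h : G, c (g * h) = c g * c h := by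
    intro g h
    apply hinj
    show c (g * h) • v = (c g * c h) • v
    rw [← hc (g * h), map_mul, Units.val_mul, ← Matrix.mulVec_mulVec, hc h, Matrix.mulVec_smul, hc g,
      smul_smul, mul_comm]
  -- the diagonal representation
  let f : G →* Matrix (Fin 2) (Fin 2) K :=
    { toFun := fun g => Matrix.diagonal
        ![c g, ((ρ g : GL (Fin 2) K) : Matrix (Fin 2) (Fin 2) K).det / c g]
      map_one' := by
        rw [hc1, map_one, Units.val_one, Matrix.det_one, div_one]
        ext i j
        fin_cases i <;> fin_cases j <;> simp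
      map_mul' := by
        intro g h
        rw [Matrix.diagonal_mul_diagonal, hcmul, map_mul, Units.val_mul, Matrix.det_mul]
        congr 1
        funext i
        fin_cases i
        · simp
        · simp only [Fin.mk_one, Fin.isValue, cons_val_one, cons_val_fin_one]
          field_simp [hc0 g, hc0 h] }
  have hf : ∀ g, f g = Matrix.diagonal
      ![c g, ((ρ g : GL (Fin 2) K) : Matrix (Fin 2) (Fin 2) K).det / c g] := fun g => rfl
  refine ⟨f.toHomUnits, ?_, fun g => ⟨?_, ?_⟩, fun g hg => ?_⟩
  · refine dsgSemisimple_of_diagonal _ ?_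
    rintro _ ⟨g, rfl⟩
    rw [MonoidHom.coe_toHomUnits, hf]
    simp
  · rw [MonoidHom.coe_toHomUnits, hf, Matrix.trace_fin_two]
    simp only [Matrix.diagonal_apply_eq, Fin.isValue, cons_val_zero, cons_val_one, cons_val_fin_one]
    have := hroot g
    field_simp [hc0 g]
    linear_combination this
  · rw [MonoidHom.coe_toHomUnits, hf, Matrix.det_diagonal, Fin.prod_univ_two]
    simp only [Fin.isValue, cons_val_zero, cons_val_one, cons_val_fin_one]
    field_simp [hc0 g]
  · apply Units.ext
    rw [MonoidHom.coe_toHomUnits, hf, Units.val_one]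
    have h1 : c g = 1 := by
      apply hinj
      show c g • v = (1 : K) • v
      rw [← hc g, hg, Units.val_one, Matrix.one_mulVec, one_smul]
    rw [h1, hg, Units.val_one, Matrix.det_one, div_one]
    ext i j
    fin_cases i <;> fin_cases j <;> simp

end Fermat.Agent.DS
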