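/-
DS-4 (helper4), file 3: **descent to the prime field** (helper8's `ter_descends_matrix` over an
algebraic closure of `DslRes ℓ`, followed by semisimplification over `ZMod ℓ`).
-/
import Mathlib
import Fermat.Agent.Lib.DS.Res.Semisimple
import Fermat.Agent.Lib.DS.Lift.Red
import Fermat.Agent.Lib.T1.Asm.Res.Descent

set_option autoImplicit false
set_option linter.style.haveILetI false

open Matrix

namespace Fermat.Agent.DS




/-- **descent to `𝔽_ℓ`**: a two-dimensional representation over a field mapping to `DslRes ℓ` all of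
whose traces and determinants lie in the prime field comes, up to semisimplification, from a
semisimple representation over `ZMod ℓ` -/
theorem dsv_descent (ℓ : ℕ) [Fact ℓ.Prime] {G : Type*} [Group G] {k' : Type*} [Field k']
    (j : k' →+* DslRes ℓ) (ρ : G →* GL (Fin 2) k')
    (htr : ∀ g, j ((ρ g : GL (Fin 2) k') : Matrix (Fin 2) (Fin 2) k').trace ∈ (dslResMap ℓ).range)
    (hdet : ∀ g, j ((ρ g : GL (Fin 2) k') : Matrix (Fin 2) (Fin 2) k').det ∈ (dslResMap ℓ).range) :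
    ∃ ρ₀ : G →* GL (Fin 2) (ZMod ℓ), DsgSemisimple ρ₀.range ∧
      (∀ g, dslResMap ℓ ((ρ₀ g : GL (Fin 2) (ZMod ℓ)) : Matrix (Fin 2) (Fin 2) (ZMod ℓ)).trace
          = j ((ρ g : GL (Fin 2) k') : Matrix (Fin 2) (Fin 2) k').trace ∧
        dslResMap ℓ ((ρ₀ g : GL (Fin 2) (ZMod ℓ)) : Matrix (Fin 2) (Fin 2) (ZMod ℓ)).det
          = j ((ρ g : GL (Fin 2) k') : Matrix (Fin 2) (Fin 2) k').det) ∧
      ∀ g, ρ g = 1 → ρ₀ g = 1 := by
  classical
  let F := AlgebraicClosure (DslRes ℓ)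
  let ι₀ : DslRes ℓ →+* F := algebraMap (DslRes ℓ) F
  have hι₀ : Function.Injective ι₀ := ι₀.injective
  letI : Algebra (ZMod ℓ) F := (ι₀.comp (dslResMap ℓ)).toAlgebra
  have halg : ∀ z : ZMod ℓ, algebraMap (ZMod ℓ) F z = ι₀ (dslResMap ℓ z) := fun z => rfl
  let ι : k' →+* F := ι₀.comp j
  let ρF : G →* Matrix (Fin 2) (Fin 2) F :=
    (ι.mapMatrix : Matrix (Fin 2) (Fin 2) k' →+* Matrix (Fin 2) (Fin 2) F).toMonoidHom.comp
      ((Units.coeHom (Matrix (Fin 2) (Fin 2) k')).comp ρ)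
  have hρF : ∀ g, ρF g = ((ρ g : GL (Fin 2) k') : Matrix (Fin 2) (Fin 2) k').map ι := fun g => rfl
  have htrF : ∀ g, (ρF g).trace = ι ((ρ g : GL (Fin 2) k') : Matrix (Fin 2) (Fin 2) k').trace := by
    intro g
    rw [hρF, Matrix.trace_fin_two, Matrix.trace_fin_two, map_add]
    rfl
  have hdetF : ∀ g, (ρF g).det = ι ((ρ g : GL (Fin 2) k') : Matrix (Fin 2) (Fin 2) k').det := by
    intro g
    rw [hρF]
    exact (RingHom.map_det ι _).symm
  obtain ⟨ρ₀, h1, h2, h3⟩ := Fermat.Agent.T1.ter_descends_matrix (k₀ := ZMod ℓ) ρF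
    (fun g => by
      obtain ⟨a, ha⟩ := htr g
      exact ⟨a, by rw [halg, ha, htrF]; rfl⟩)
    (fun g => by
      obtain ⟨a, ha⟩ := hdet g
      exact ⟨a, by rw [halg, ha, hdetF]; rfl⟩)
  obtain ⟨ρ₁, hss, htd, hker⟩ := dsv_semisimplify ρ₀.toHomUnits
  refine ⟨ρ₁, hss, fun g => ⟨?_, ?_⟩, fun g hg => ?_⟩
  · apply hι₀
    rw [(htd g).1, MonoidHom.coe_toHomUnits, ← halg, h1 g, htrF]
    rfl
  · apply hι₀
    rw [(htd g).2, MonoidHom.coe_toHomUnits, ← halg, h2 g, hdetF]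
    rfl
  · apply hker
    apply Units.ext
    rw [MonoidHom.coe_toHomUnits, Units.val_one]
    apply h3
    rw [hρF, hg, Units.val_one]
    exact Matrix.map_one ι (map_zero ι) (map_one ι)

end Fermat.Agent.DS
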