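/-
DS-4 (helper4), file 4: **the residual representations of Deligne–Serre** (`DsfResidualInf`) from the
black boxes `DsvGamma1Res` (Γ₁-RES, form shape) and `DsvProduct` (product with the weight-one
Eisenstein series), for a weight-one form `f₀` with algebraic integer coefficients satisfying the
Hecke relations, given arbitrarily large primes `ℓ` at which all coefficients reduce into `𝔽_ℓ`.

* `dsv_trace_det_mem` : traces/determinants of all elements from those of the Frobenius elements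
  (Frobenius density theorem + the power-trace polynomials);
* `dsv_residual_of_form` : (Γ₁-RES) + descent to `ZMod ℓ`;
* `dsv_residualInf` : the assembly (`g = f₀ G_ℓ` is an eigenvector modulo `ℓ` with eigenvalues
  `r (a_p)`, `p χ(p) ≡ ε₀(p)`, and `ε₀(p) = a_p² - a_{p²}` is an algebraic integer).
-/
import Mathlib
import Fermat.Agent.Lib.DS.Res.Defs
import Fermat.Agent.Lib.DS.Res.Descent
import Fermat.Agent.Lib.DS.Hecke.DS0Forms
import Fermat.Agent.Lib.S31.Trace.FrobPow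
import Fermat.Agent.Lib.S31.Trace.PowTrace

set_option autoImplicit false
set_option linter.style.haveILetI false

open CongruenceSubgroup ModularFormClass Matrix

namespace Fermat.Agent.DS


local notation "Qbar" => AlgebraicClosure ℚ
local notation "GQ" => (AlgebraicClosure ℚ ≃ₐ[ℚ] AlgebraicClosure ℚ)



/-- the power-trace polynomials preserve subrings -/
theorem dsv_s31tPow_mem {R : Type*} [CommRing R] (S : Subring R) {a d : R} (ha : a ∈ S)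
    (hd : d ∈ S) (n : ℕ) : Fermat.Agent.S31T.s31tPow a d n ∈ S := by
  induction n using Nat.strong_induction_on with
  | _ n ih =>
    match n with
    | 0 =>
      rw [Fermat.Agent.S31T.s31tPow_zero]
      exact ofNat_mem S 2
    | 1 => rw [Fermat.Agent.S31T.s31tPow_one]; exact ha
    | n + 2 =>
      rw [Fermat.Agent.S31T.s31tPow_succ_succ]
      exact S.sub_mem (S.mul_mem ha (ih (n + 1) (by omega))) (S.mul_mem hd (ih n (by omega)))

/-- if the traces and determinants of the Frobenius elements outside a finite set of primes lie in a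
subring, so do all traces and determinants (Frobenius density theorem) -/
theorem dsv_trace_det_mem {R : Type} [CommRing R] (S : Subring R) (ρ : GQ →* GL (Fin 2) R)
    (hlev : GaloisFactorsThroughFiniteLevel ρ) (T : Finset ℕ)
    (hfr : ∀ p : ℕ, p.Prime → p ∉ T → ∀ (A : ValuationSubring Qbar) (φ : GQ), A.LiesOverPrime p →
      A.IsFrobeniusAt φ p → ((ρ φ : GL (Fin 2) R) : Matrix (Fin 2) (Fin 2) R).trace ∈ S ∧
        ((ρ φ : GL (Fin 2) R) : Matrix (Fin 2) (Fin 2) R).det ∈ S) (g : GQ) :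
    ((ρ g : GL (Fin 2) R) : Matrix (Fin 2) (Fin 2) R).trace ∈ S ∧
      ((ρ g : GL (Fin 2) R) : Matrix (Fin 2) (Fin 2) R).det ∈ S := by
  classical
  obtain ⟨L₁, hL₁, hρ₁⟩ := hlev
  obtain ⟨L, hLfin, hLnorm, hL₁L, -⟩ := dsf_exists_normal_level L₁ L₁ hL₁ hL₁
  haveI := hLfin
  haveI := hLnorm
  have hlev' : DsfLevel ρ L := DsfLevel.mono (L := L₁) hρ₁ hL₁L
  obtain ⟨l, hl, hlT, P, φ, hP, hφ, b, hb⟩ := Fermat.Agent.S31T.s31t_exists_frobenius_pow L g T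
  obtain ⟨ht, hd⟩ := hfr l hl hlT P φ hP hφ
  have e1 : ρ g = ρ φ ^ b := by rw [← map_pow]; exact hlev'.apply_eq g (φ ^ b) hb
  rw [e1, Units.val_pow_eq_pow_val]
  refine ⟨?_, ?_⟩
  · rw [Fermat.Agent.S31T.s31t_trace_pow_matrix]
    exact dsv_s31tPow_mem S ht hd b
  · rw [Matrix.det_pow]
    exact S.pow_mem hd b

/-- **residual representations over `𝔽_ℓ` from (Γ₁-RES)**: if moreover the eigenvalues and the
determinants lie in the prime field, the representation descends to a semisimple representation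
over `ZMod ℓ` -/
theorem dsv_residual_of_form (hres : DsvGamma1Res) (M : ℕ) [NeZero M] (hM5 : 5 ≤ M)
    (hM49 : 4 ∣ M ∨ 9 ∣ M) (ℓ : ℕ) [Fact ℓ.Prime] (χ : DirichletCharacter ℂ M)
    (g : CuspForm (Gamma1 M) 2) (c : ℕ → integralClosure ℤ ℂ) (x : ZMod M → integralClosure ℤ ℂ)
    (abar : ℕ → DslRes ℓ)
    (hχ : ∀ d : (ZMod M)ˣ, dshDiamond 2 M d g = χ (d : ZMod M) • g)
    (hc : ∀ n : ℕ, (c n : ℂ) = qCoeff g n) (hx : ∀ d : ZMod M, (x d : ℂ) = χ d)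
    (h1 : dslRed ℓ (c 1) ≠ 0)
    (heig : ∀ p : ℕ, p.Prime → ¬ p ∣ M → p ≠ ℓ → ∀ n : ℕ,
      dslRed ℓ (c (p * n) + (p : integralClosure ℤ ℂ) * x (p : ZMod M) *
          (if p ∣ n then c (n / p) else 0)) = abar p * dslRed ℓ (c n))
    (habar : ∀ p : ℕ, p.Prime → ¬ p ∣ M → p ≠ ℓ → abar p ∈ (dslResMap ℓ).range)
    (hdetr : ∀ p : ℕ, p.Prime → ¬ p ∣ M → p ≠ ℓ →
      (p : DslRes ℓ) * dslRed ℓ (x (p : ZMod M)) ∈ (dslResMap ℓ).range) :
    ∃ ρ₀ : GQ →* GL (Fin 2) (ZMod ℓ), GaloisFactorsThroughFiniteLevel ρ₀ ∧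
      DsgSemisimple ρ₀.range ∧
      ∀ p : ℕ, p.Prime → ¬ p ∣ M → p ≠ ℓ → ∀ A : ValuationSubring Qbar, A.LiesOverPrime p →
        (∀ σ ∈ A.inertiaSubgroupIn ℚ, ρ₀ σ = 1) ∧
        ∀ σ : GQ, A.IsFrobeniusAt σ p →
          dslResMap ℓ ((ρ₀ σ : GL (Fin 2) (ZMod ℓ)) : Matrix (Fin 2) (Fin 2) (ZMod ℓ)).trace
            = abar p ∧
          dslResMap ℓ ((ρ₀ σ : GL (Fin 2) (ZMod ℓ)) : Matrix (Fin 2) (Fin 2) (ZMod ℓ)).det
            = (p : DslRes ℓ) * dslRed ℓ (x (p : ZMod M)) := by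
  classical
  obtain ⟨k', hk', j, ρbar, hlev, hatt⟩ := hres M hM5 hM49 ℓ χ g c x abar hχ hc hx h1 heig
  letI := hk'
  let S : Subring k' := (dslResMap ℓ).range.comap j
  have hfr : ∀ p : ℕ, p.Prime → p ∉ insert ℓ M.primeFactors → ∀ (A : ValuationSubring Qbar)
      (φ : GQ), A.LiesOverPrime p → A.IsFrobeniusAt φ p →
      ((ρbar φ : GL (Fin 2) k') : Matrix (Fin 2) (Fin 2) k').trace ∈ S ∧
        ((ρbar φ : GL (Fin 2) k') : Matrix (Fin 2) (Fin 2) k').det ∈ S := by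
    intro p hp hpT A φ hA hφ
    have hpℓ : p ≠ ℓ := fun h => hpT (h ▸ Finset.mem_insert_self _ _)
    have hpM : ¬ p ∣ M := fun h => hpT (Finset.mem_insert_of_mem
      (Nat.mem_primeFactors.mpr ⟨hp, h, NeZero.ne M⟩))
    obtain ⟨e1, e2⟩ := (hatt p hp hpM hpℓ A hA).2 φ hφ
    refine ⟨?_, ?_⟩
    · show j _ ∈ (dslResMap ℓ).range
      rw [e1]; exact habar p hp hpM hpℓ
    · show j _ ∈ (dslResMap ℓ).range
      rw [e2]; exact hdetr p hp hpM hpℓ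
  have hall := dsv_trace_det_mem S ρbar hlev (insert ℓ M.primeFactors) hfr
  obtain ⟨ρ₀, hss, htd, hker⟩ := dsv_descent ℓ j ρbar (fun σ => (hall σ).1) (fun σ => (hall σ).2)
  refine ⟨ρ₀, ?_, hss, fun p hp hpM hpℓ A hA => ⟨fun σ hσ => ?_, fun σ hσ => ⟨?_, ?_⟩⟩⟩
  · obtain ⟨L, hL, hρ⟩ := hlev
    exact ⟨L, hL, fun σ hσ => hker σ (hρ σ hσ)⟩
  · exact hker σ ((hatt p hp hpM hpℓ A hA).1 σ hσ)
  · rw [(htd σ).1]; exact ((hatt p hp hpM hpℓ A hA).2 σ hσ).1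
  · rw [(htd σ).2]; exact ((hatt p hp hpM hpℓ A hA).2 σ hσ).2





/-- **DS-4**: residual representations modulo arbitrarily large primes `ℓ` attached to a weight-one
form with algebraic integer coefficients satisfying the Hecke relations, from the black boxes
(Γ₁-RES) and (product with the Eisenstein series), given primes `ℓ` which split completely in the
field of coefficients -/
theorem dsv_residualInf (hres : DsvGamma1Res) (hprod : DsvProduct) {M₀ : ℕ} [NeZero M₀]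
    (hM₀ : 4 ∣ M₀ ∨ 9 ∣ M₀) (ε₀ : DirichletCharacter ℂ M₀) (f₀ : CuspForm (Gamma1 M₀) 1)
    (hf₁ : qCoeff f₀ 1 = 1)
    (hT : ∀ p : ℕ, p.Prime → ¬ p ∣ M₀ → ∀ n : ℕ,
      qCoeff f₀ (p * n) + ε₀ (p : ZMod M₀) * (if p ∣ n then qCoeff f₀ (n / p) else 0) =
        qCoeff f₀ p * qCoeff f₀ n)
    (hint : ∀ n : ℕ, IsIntegral ℤ (qCoeff f₀ n))
    (hsplit : ∀ B : ℕ, ∃ (ℓ : ℕ) (_ : Fact ℓ.Prime), B < ℓ ∧ ∀ z : integralClosure ℤ ℂ,
      (∃ n : ℕ, (z : ℂ) = qCoeff f₀ n) → dslRed ℓ z ∈ (dslResMap ℓ).range)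
    (a e : ℕ → ℂ) (ha : ∀ p : ℕ, p.Prime → ¬ p ∣ M₀ → a p = qCoeff f₀ p)
    (he : ∀ p : ℕ, p.Prime → ¬ p ∣ M₀ → e p = ε₀ (p : ZMod M₀)) :
    DsfResidualInf M₀.primeFactors a e := by
  classical
  intro B
  obtain ⟨ℓ, hℓ, hBℓ, hspl⟩ := hsplit (max B (max 5 M₀))
  haveI := hℓ
  have hℓp : ℓ.Prime := hℓ.out
  have hB : B < ℓ := lt_of_le_of_lt (le_max_left _ _) hBℓ
  have h5 : 5 ≤ ℓ := le_of_lt (lt_of_le_of_lt ((le_max_left _ _).trans (le_max_right _ _)) hBℓ)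
  have hM₀ℓ : M₀ < ℓ := lt_of_le_of_lt ((le_max_right _ _).trans (le_max_right _ _)) hBℓ
  have hℓM : ¬ ℓ ∣ M₀ := Nat.not_dvd_of_pos_of_lt (Nat.pos_of_ne_zero (NeZero.ne M₀)) hM₀ℓ
  haveI : NeZero (M₀ * ℓ) := ⟨mul_ne_zero (NeZero.ne M₀) hℓp.ne_zero⟩
  -- the coefficients as algebraic integers
  let c₀ : ℕ → integralClosure ℤ ℂ := fun n => ⟨qCoeff f₀ n, hint n⟩
  have hc₀ : ∀ n, (c₀ n : ℂ) = qCoeff f₀ n := fun n => rfl
  have hc₀1 : c₀ 1 = 1 := Subtype.ext hf₁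
  -- the values of the character at the good primes, as algebraic integers
  let e₀ : ℕ → integralClosure ℤ ℂ := fun p => c₀ p * c₀ p - c₀ (p * p)
  have he₀ : ∀ p : ℕ, p.Prime → ¬ p ∣ M₀ → (e₀ p : ℂ) = ε₀ (p : ZMod M₀) := by
    intro p hp hpM
    have h := hT p hp hpM p
    rw [if_pos (dvd_refl p), Nat.div_self hp.pos, hf₁, mul_one] at h
    show qCoeff f₀ p * qCoeff f₀ p - qCoeff f₀ (p * p) = _
    rw [← h]; ring
  have hTint : ∀ p : ℕ, p.Prime → ¬ p ∣ M₀ → ∀ n : ℕ,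
      c₀ (p * n) + e₀ p * (if p ∣ n then c₀ (n / p) else 0) = c₀ p * c₀ n := by
    intro p hp hpM n
    apply Subtype.ext
    have h := hT p hp hpM n
    rw [← he₀ p hp hpM] at h
    by_cases hpn : p ∣ n
    · rw [if_pos hpn] at h ⊢
      exact h
    · rw [if_neg hpn] at h ⊢
      exact h
  have hε₀ : ∀ d : (ZMod M₀)ˣ, dshDiamond 1 M₀ d f₀ = ε₀ (d : ZMod M₀) • f₀ :=
    fun d => dsh_dshDiamond_eigen ε₀ f₀ hT d
  obtain ⟨χ, g, c, x, hχ, hc, hx, hcc₀, hdet⟩ := hprod M₀ ε₀ f₀ c₀ hε₀ hc₀ ℓ h5 hℓM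
  have hdvd : ∀ p : ℕ, ¬ p ∣ M₀ * ℓ → ¬ p ∣ M₀ := fun p h h' => h (h'.mul_right ℓ)
  have hdet' : ∀ p : ℕ, p.Prime → ¬ p ∣ M₀ * ℓ →
      (p : DslRes ℓ) * dslRed ℓ (x (p : ZMod (M₀ * ℓ))) = dslRed ℓ (e₀ p) :=
    fun p hp hpM => hdet p hp hpM (e₀ p) (he₀ p hp (hdvd p hpM))
  obtain ⟨ρ₀, hlev, hss, hatt⟩ := dsv_residual_of_form hres (M₀ * ℓ)
    (le_trans h5 (Nat.le_mul_of_pos_left ℓ (Nat.pos_of_ne_zero (NeZero.ne M₀))))
    (hM₀.imp (fun h => h.mul_right ℓ) (fun h => h.mul_right ℓ)) ℓ χ g c x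
    (fun p => dslRed ℓ (c₀ p)) hχ hc hx
    (by
      rw [hcc₀, hc₀1, map_one]
      exact neg_ne_zero.mpr one_ne_zero)
    (by
      intro p hp hpM hpℓ n
      have h2 := congrArg (dslRed ℓ) (hTint p hp (hdvd p hpM) n)
      rw [map_add, map_mul, map_mul] at h2
      rw [map_add, map_mul, map_mul, map_natCast, hdet' p hp hpM, hcc₀, hcc₀]
      by_cases hpn : p ∣ n
      · rw [if_pos hpn] at h2 ⊢
        rw [hcc₀]
        linear_combination -h2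
      · rw [if_neg hpn] at h2 ⊢
        rw [map_zero] at h2 ⊢
        linear_combination -h2)
    (fun p hp hpM hpℓ => hspl (c₀ p) ⟨p, rfl⟩)
    (by
      intro p hp hpM hpℓ
      rw [hdet' p hp hpM]
      show dslRed ℓ (c₀ p * c₀ p - c₀ (p * p)) ∈ _
      rw [map_sub, map_mul]
      exact Subring.sub_mem _ (Subring.mul_mem _ (hspl (c₀ p) ⟨p, rfl⟩) (hspl (c₀ p) ⟨p, rfl⟩))
        (hspl (c₀ (p * p)) ⟨p * p, rfl⟩))
  refine ⟨ℓ, hℓ, ρ₀, hB, ⟨hlev, hss, ?_⟩⟩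
  intro p hp hpT hpℓ A hA
  have hpM₀ : ¬ p ∣ M₀ := fun h => hpT (Nat.mem_primeFactors.mpr ⟨hp, h, NeZero.ne M₀⟩)
  have hpM : ¬ p ∣ M₀ * ℓ := by
    intro h
    rcases (Nat.Prime.dvd_mul hp).mp h with h' | h'
    · exact hpM₀ h'
    · exact hpℓ ((Nat.prime_dvd_prime_iff_eq hp hℓp).mp h')
  obtain ⟨hin, hfr⟩ := hatt p hp hpM hpℓ A hA
  refine ⟨hin, fun σ hσ => ⟨c₀ p, e₀ p, (ha p hp hpM₀).symm, ?_, ?_, ?_⟩⟩
  · rw [he₀ p hp hpM₀, he p hp hpM₀]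
  · exact ((hfr σ hσ).1).symm
  · rw [(hfr σ hσ).2, hdet' p hp hpM]

end Fermat.Agent.DS
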