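/-
DS-4 / Γ₁-RES (helper4): **the residue field `DslRes ℓ` of the ring of integers of `ℚ̄_ℓ` is
algebraically closed** (lift a monic polynomial, take a root in `ℚ̄_ℓ`; it is integral).
-/
import Mathlib
import Fermat.Agent.Lib.DS.Lift.Red

set_option autoImplicit false
set_option linter.style.haveILetI false

open Polynomial

namespace Fermat.Agent.DS


/-- the residue field `DslRes ℓ` is algebraically closed -/
instance dslRes_isAlgClosed (ℓ : ℕ) [Fact ℓ.Prime] : IsAlgClosed (DslRes ℓ) := by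
  classical
  refine IsAlgClosed.of_exists_root _ fun p hpm hpirr => ?_
  -- lift `p` to a monic polynomial over the ring of integers
  have hlift : p ∈ Polynomial.lifts (dslMk ℓ) :=
    (Polynomial.mem_lifts p).mpr (Polynomial.map_surjective _ (dslMk_surjective ℓ) p)
  obtain ⟨P, hPp, hPdeg, hPm⟩ := Polynomial.lifts_and_natDegree_eq_and_monic hlift hpm
  have hdeg : P.natDegree ≠ 0 := by
    rw [hPdeg]
    exact (Polynomial.natDegree_pos_iff_degree_pos.mpr
      (Polynomial.degree_pos_of_irreducible hpirr)).ne'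
  -- a root in the algebraic closure
  let Ω := AlgebraicClosure ℚ_[ℓ]
  let PΩ : Polynomial Ω := P.map (algebraMap (dslInt ℓ) Ω)
  have hPΩdeg : PΩ.degree ≠ 0 := by
    have h1 : PΩ.natDegree = P.natDegree := (hPm.natDegree_map _)
    intro h0
    apply hdeg
    rw [← h1]
    exact Polynomial.natDegree_eq_of_degree_eq_some h0
  obtain ⟨x, hx⟩ := IsAlgClosed.exists_root PΩ hPΩdeg
  have hx' : Polynomial.eval₂ (algebraMap (dslInt ℓ) Ω) x P = 0 := by
    rw [← Polynomial.eval_map]; exact hx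
  have hxint : IsIntegral (dslInt ℓ) x := ⟨P, hPm, hx'⟩
  haveI : Algebra.IsIntegral ℤ_[ℓ] (dslInt ℓ) :=
    inferInstanceAs (Algebra.IsIntegral ℤ_[ℓ] (integralClosure ℤ_[ℓ] (AlgebraicClosure ℚ_[ℓ])))
  have hxint' : IsIntegral ℤ_[ℓ] x := isIntegral_trans x hxint
  let y : dslInt ℓ := ⟨x, hxint'⟩
  have hy : Polynomial.eval y P = 0 := by
    apply Subtype.ext
    have h2 : ((Polynomial.eval y P : dslInt ℓ) : Ω)
        = Polynomial.eval₂ (algebraMap (dslInt ℓ) Ω) x P := by
      have h3 := Polynomial.hom_eval₂ P (RingHom.id _) (algebraMap (dslInt ℓ) Ω) y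
      rw [RingHom.comp_id] at h3
      exact h3
    rw [h2, hx']
    rfl
  refine ⟨dslMk ℓ y, ?_⟩
  rw [← hPp, Polynomial.eval_map, Polynomial.eval₂_hom, hy, map_zero]

end Fermat.Agent.DS
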