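/-
DS-4 / Γ₁-RES (helper4): **lifting eigensystems to characteristic zero** (Deligne–Serre, Lemme 6.11,
in the form needed for Galois representations).

* `dsv_exists_extension` : a homomorphism `A → k` into an algebraically closed field extends along an
  injective integral extension `A ⊆ B` (lying over + `IsAlgClosed.lift` on the residue rings);
* `dsv_exists_dvr_of_hom` : for a commutative ring `𝕋`, finitely generated and torsion-free over `ℤ`,
  every homomorphism `θ : 𝕋 → k` to an algebraically closed field of characteristic `p` is the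
  reduction of a homomorphism `χ : 𝕋 → 𝒪` to a complete discrete valuation ring of characteristic
  zero with finite residue field (minimal prime `𝔭 ⊆ ker θ`, `𝕋/𝔭` is an order in a number field `K`,
  extend `θ` to `𝓞 K`, localise and complete: helper8's `ter_exists_dvr_of_dedekind`).
-/
import Mathlib
import Fermat.Agent.Lib.T1.Asm.Res.ExistsDVR

set_option autoImplicit false
set_option linter.style.haveILetI false

open IsLocalRing NumberField

namespace Fermat.Agent.DS


/-- extension of a homomorphism into an algebraically closed field along an injective integral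
extension -/
theorem dsv_exists_extension {A B : Type*} [CommRing A] [CommRing B] [Algebra A B]
    [Algebra.IsIntegral A B] (hinj : Function.Injective (algebraMap A B)) {k : Type*} [Field k]
    [IsAlgClosed k] (θ : A →+* k) : ∃ ψ : B →+* k, ∀ a, ψ (algebraMap A B a) = θ a := by
  classical
  let P : Ideal A := RingHom.ker θ
  haveI hP : P.IsPrime := RingHom.ker_isPrime θ
  obtain ⟨Q, -, hQ, hQP⟩ := Ideal.exists_ideal_over_prime_of_isIntegral P (⊥ : Ideal B) (by
    rw [← RingHom.ker_eq_comap_bot, (RingHom.injective_iff_ker_eq_bot _).mp hinj]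
    exact bot_le)
  haveI := hQ
  haveI : Q.LiesOver P := ⟨hQP.symm⟩
  letI : Algebra (A ⧸ P) k := (RingHom.kerLift θ).toAlgebra
  haveI : Module.IsTorsionFree (A ⧸ P) k :=
    Module.isTorsionFree_iff_algebraMap_injective.mpr (RingHom.kerLift_injective θ)
  haveI : Module.IsTorsionFree (A ⧸ P) (B ⧸ Q) :=
    Module.isTorsionFree_iff_algebraMap_injective.mpr (FaithfulSMul.algebraMap_injective _ _)
  let f : (B ⧸ Q) →ₐ[A ⧸ P] k := IsAlgClosed.lift
  refine ⟨f.toRingHom.comp (Ideal.Quotient.mk Q), fun a => ?_⟩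
  have h1 : Ideal.Quotient.mk Q (algebraMap A B a)
      = algebraMap (A ⧸ P) (B ⧸ Q) (Ideal.Quotient.mk P a) := rfl
  rw [RingHom.comp_apply, h1]
  have h2 := f.commutes (Ideal.Quotient.mk P a)
  exact h2

/-- **the Deligne–Serre lifting lemma, DVR form**: a homomorphism from a commutative ring which is
a finitely generated torsion-free `ℤ`-module to an algebraically closed field of characteristic `p`
lifts to characteristic zero: it is the reduction of a homomorphism to a complete discrete valuation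
ring of characteristic zero with finite residue field. -/
theorem dsv_exists_dvr_of_hom {𝕋 : Type} [CommRing 𝕋] [Module.Finite ℤ 𝕋]
    [Module.IsTorsionFree ℤ 𝕋] {p : ℕ} (hp : p.Prime) {k : Type} [Field k] [IsAlgClosed k]
    [CharP k p] (θ : 𝕋 →+* k) :
    ∃ (𝒪 : Type) (_ : CommRing 𝒪) (_ : IsDomain 𝒪) (_ : IsDiscreteValuationRing 𝒪)
      (_ : IsAdicComplete (maximalIdeal 𝒪) 𝒪) (_ : Finite (ResidueField 𝒪)) (_ : CharZero 𝒪)
      (χ : 𝕋 →+* 𝒪) (ι : ResidueField 𝒪 →+* k),
      (p : 𝒪) ∈ maximalIdeal 𝒪 ∧ ∀ t, ι (residue 𝒪 (χ t)) = θ t := by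
  classical
  -- a minimal prime below the kernel
  haveI : (RingHom.ker θ).IsPrime := RingHom.ker_isPrime θ
  obtain ⟨𝔭, h𝔭min, h𝔭J⟩ := Ideal.exists_minimalPrimes_le (bot_le : (⊥ : Ideal 𝕋) ≤ RingHom.ker θ)
  haveI h𝔭prime : 𝔭.IsPrime := h𝔭min.1.1
  let θA : 𝕋 ⧸ 𝔭 →+* k := Ideal.Quotient.lift 𝔭 θ (fun a ha => h𝔭J ha)
  have hθA : ∀ t, θA (Ideal.Quotient.mk 𝔭 t) = θ t := fun t => Ideal.Quotient.lift_mk 𝔭 θ _
  -- the quotient has characteristic zero
  haveI : CharZero (𝕋 ⧸ 𝔭) := by
    refine charZero_of_inj_zero fun n hn => ?_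
    by_contra hn0
    have h1 : ((n : ℕ) : 𝕋) ∈ 𝔭 := by
      rw [← Ideal.Quotient.eq_zero_iff_mem, map_natCast]; exact hn
    have h2 : ((n : ℕ) : 𝕋) ∈ nonZeroDivisors 𝕋 := by
      rw [mem_nonZeroDivisors_iff_right]
      intro x hx
      have h3 : (n : ℤ) • x = 0 := by
        rw [zsmul_eq_mul, Int.cast_natCast, mul_comm]; exact hx
      exact (smul_eq_zero_iff_right (Int.natCast_ne_zero.mpr hn0)).mp h3
    exact (Set.disjoint_left.mp
      (Ideal.disjoint_nonZeroDivisors_of_mem_minimalPrimes h𝔭min) h1) h2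
  -- the fraction field is a number field
  let K := FractionRing (𝕋 ⧸ 𝔭)
  haveI : CharZero K := charZero_of_injective_algebraMap (IsFractionRing.injective (𝕋 ⧸ 𝔭) K)
  haveI : @IsScalarTower ℤ ℚ K Algebra.toSMul Algebra.toSMul Algebra.toSMul :=
    IsScalarTower.of_algebraMap_eq' (RingHom.ext_int _ _)
  haveI : Module.Finite ℚ K := Module.Finite.of_isLocalization ℤ (𝕋 ⧸ 𝔭) (nonZeroDivisors ℤ)
  haveI : NumberField K := { to_charZero := inferInstance, to_finiteDimensional := inferInstance }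
  -- the map to the ring of integers
  have hint : ∀ a : 𝕋 ⧸ 𝔭, @IsIntegral ℤ K _ _ (Ring.toIntAlgebra K)
      (algebraMap (𝕋 ⧸ 𝔭) K a) := by
    intro a
    obtain ⟨P, hPm, hP⟩ := Algebra.IsIntegral.isIntegral (R := ℤ) a
    refine ⟨P, hPm, ?_⟩
    have h1 : @algebraMap ℤ K _ _ (Ring.toIntAlgebra K)
        = (algebraMap (𝕋 ⧸ 𝔭) K).comp (algebraMap ℤ (𝕋 ⧸ 𝔭)) := RingHom.ext_int _ _
    rw [h1, ← Polynomial.hom_eval₂, hP, map_zero]
  let iA : 𝕋 ⧸ 𝔭 →+* 𝓞 K :=
    { toFun := RingOfIntegers.restrict (algebraMap (𝕋 ⧸ 𝔭) K) hint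
      map_one' := by simp only [RingOfIntegers.restrict, map_one]; rfl
      map_mul' := fun x y => by simp only [RingOfIntegers.restrict, map_mul]; rfl
      map_zero' := by simp only [RingOfIntegers.restrict, map_zero]; rfl
      map_add' := fun x y => by simp only [RingOfIntegers.restrict, map_add]; rfl }
  have hiA : Function.Injective iA := by
    intro a b hab
    have := congrArg (fun z : 𝓞 K => (z : K)) hab
    exact IsFractionRing.injective (𝕋 ⧸ 𝔭) K this
  letI : Algebra (𝕋 ⧸ 𝔭) (𝓞 K) := iA.toAlgebra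
  haveI : Algebra.IsIntegral (𝕋 ⧸ 𝔭) (𝓞 K) :=
    ⟨fun x => (RingOfIntegers.isIntegral x).tower_top⟩
  obtain ⟨ψ, hψ⟩ := dsv_exists_extension (A := 𝕋 ⧸ 𝔭) (B := 𝓞 K) hiA θA
  obtain ⟨𝒪, i1, i2, i3, i4, i5, i6, j, ι, hp𝒪, hι⟩ :=
    Fermat.Agent.T1.ter_exists_dvr_of_dedekind (B := 𝓞 K)
      (fun I hI => Ideal.finiteQuotientOfFreeOfNeBot I hI) hp ψ
  refine ⟨𝒪, i1, i2, i3, i4, i5, i6, j.comp (iA.comp (Ideal.Quotient.mk 𝔭)), ι, hp𝒪, fun t => ?_⟩
  rw [RingHom.comp_apply, RingHom.comp_apply, hι]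
  exact (hψ (Ideal.Quotient.mk 𝔭 t)).trans (hθA t)

end Fermat.Agent.DS
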