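/-
Γ₁-RES (helper4): **the eigensystem modulo `ℓ` of a mod-`ℓ` eigenform** (form shape ⟹ algebra shape).

`dsvRedC ℓ : ℂ → DslRes ℓ` is the reduction map `dslRed ℓ` extended by `0` outside the algebraic
integers.  For a character `χ`, `DsvLat χ` is the lattice of the weight-two cusp forms on `Γ₁(M)` with
character `χ` and algebraic integer `q`-coefficients, `DsvNull ℓ χ` its submodule of forms all of
whose coefficients reduce to `0`.  An operator `t` is *good* for `g` (`DsvGood ℓ χ g t`) if it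
preserves both and `red (a_n (t g)) = λ red (a_n g)` for all `n`; then `λ = dsvLam ℓ g t`.  Good
operators form a `ℤ`-subalgebra (the product uses the null form `a₁(g) t'g - a₁(t'g) g`), so a set of
good operators generates an algebra with a character `θ` to `DslRes ℓ` (`dsv_exists_theta`).  The
diamond operators and the `T_p` of which `g` is an eigenvector modulo `ℓ` are good
(`dsv_good_diamond`, `dsv_good_T`).
-/
import Mathlib
import Fermat.Agent.Lib.DS.Res.Defs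
import Fermat.Agent.Lib.DS.Res.Teich
import Fermat.Agent.Lib.DS.Hecke.FinDim

set_option autoImplicit false
set_option linter.unusedSectionVars false

open CongruenceSubgroup ModularFormClass

namespace Fermat.Agent.DS


/-- the reduction map on all of `ℂ`: `dslRed ℓ` on the algebraic integers, `0` elsewhere -/
noncomputable def dsvRedC (ℓ : ℕ) [Fact ℓ.Prime] (z : ℂ) : DslRes ℓ := by
  classical
  exact if h : IsIntegral ℤ z then dslRed ℓ ⟨z, h⟩ else 0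

section redC

variable (ℓ : ℕ) [Fact ℓ.Prime]

theorem dsvRedC_of_isIntegral {z : ℂ} (h : IsIntegral ℤ z) : dsvRedC ℓ z = dslRed ℓ ⟨z, h⟩ := by
  rw [dsvRedC, dif_pos h]

theorem dsvRedC_coe (x : integralClosure ℤ ℂ) : dsvRedC ℓ (x : ℂ) = dslRed ℓ x := by
  rw [dsvRedC_of_isIntegral ℓ x.2]

theorem dsvRedC_add {z w : ℂ} (hz : IsIntegral ℤ z) (hw : IsIntegral ℤ w) :
    dsvRedC ℓ (z + w) = dsvRedC ℓ z + dsvRedC ℓ w := by
  rw [dsvRedC_of_isIntegral ℓ hz, dsvRedC_of_isIntegral ℓ hw, dsvRedC_of_isIntegral ℓ (hz.add hw),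
    ← map_add]
  rfl

theorem dsvRedC_mul {z w : ℂ} (hz : IsIntegral ℤ z) (hw : IsIntegral ℤ w) :
    dsvRedC ℓ (z * w) = dsvRedC ℓ z * dsvRedC ℓ w := by
  rw [dsvRedC_of_isIntegral ℓ hz, dsvRedC_of_isIntegral ℓ hw, dsvRedC_of_isIntegral ℓ (hz.mul hw),
    ← map_mul]
  rfl

theorem dsvRedC_sub {z w : ℂ} (hz : IsIntegral ℤ z) (hw : IsIntegral ℤ w) :
    dsvRedC ℓ (z - w) = dsvRedC ℓ z - dsvRedC ℓ w := by
  rw [dsvRedC_of_isIntegral ℓ hz, dsvRedC_of_isIntegral ℓ hw, dsvRedC_of_isIntegral ℓ (hz.sub hw),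
    ← map_sub]
  rfl

@[simp] theorem dsvRedC_zero : dsvRedC ℓ 0 = 0 := by
  rw [dsvRedC_of_isIntegral ℓ isIntegral_zero]
  exact map_zero (dslRed ℓ)

@[simp] theorem dsvRedC_one : dsvRedC ℓ 1 = 1 := by
  rw [dsvRedC_of_isIntegral ℓ isIntegral_one]
  exact map_one (dslRed ℓ)

theorem dsvRedC_intCast (n : ℤ) : dsvRedC ℓ (n : ℂ) = (n : DslRes ℓ) := by
  have h : IsIntegral ℤ ((n : ℤ) : ℂ) := by
    have := isIntegral_algebraMap (R := ℤ) (A := ℂ) (x := n)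
    simpa using this
  rw [dsvRedC_of_isIntegral ℓ h]
  exact map_intCast (dslRed ℓ) n

theorem dsvRedC_natCast (n : ℕ) : dsvRedC ℓ (n : ℂ) = (n : DslRes ℓ) := by
  have := dsvRedC_intCast ℓ (n : ℤ)
  simpa using this

end redC

section lattice

variable {M : ℕ} [NeZero M] (ℓ : ℕ) [Fact ℓ.Prime]

theorem dsv_qCoeff_add {k : ℤ} (h h' : CuspForm (Gamma1 M) k) (n : ℕ) :
    qCoeff (⇑(h + h')) n = qCoeff h n + qCoeff h' n := by
  rw [FunLike.coe_add, (dshNice_of_cuspForm h).qCoeff_add (dshNice_of_cuspForm h')]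

theorem dsv_qCoeff_smul {k : ℤ} (z : ℂ) (h : CuspForm (Gamma1 M) k) (n : ℕ) :
    qCoeff (⇑(z • h)) n = z * qCoeff h n := by
  rw [FunLike.coe_smul, (dshNice_of_cuspForm h).qCoeff_smul]

theorem dsv_qCoeff_sub {k : ℤ} (h h' : CuspForm (Gamma1 M) k) (n : ℕ) :
    qCoeff (⇑(h - h')) n = qCoeff h n - qCoeff h' n := by
  rw [FunLike.coe_sub, (dshNice_of_cuspForm h).qCoeff_sub (dshNice_of_cuspForm h')]

theorem dsv_qCoeff_zero' {k : ℤ} (n : ℕ) : qCoeff (⇑(0 : CuspForm (Gamma1 M) k)) n = 0 := by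
  rw [FunLike.coe_zero]; exact dsh_qCoeff_zero n

/-- the lattice of forms with character `χ` and algebraic integer coefficients -/
def DsvLat (χ : DirichletCharacter ℂ M) (h : CuspForm (Gamma1 M) 2) : Prop :=
  (∀ d : (ZMod M)ˣ, dshDiamond 2 M d h = χ (d : ZMod M) • h) ∧ ∀ n : ℕ, IsIntegral ℤ (qCoeff h n)

/-- the forms of the lattice whose coefficients all reduce to zero -/
def DsvNull (χ : DirichletCharacter ℂ M) (h : CuspForm (Gamma1 M) 2) : Prop :=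
  DsvLat χ h ∧ ∀ n : ℕ, dsvRedC ℓ (qCoeff h n) = 0

variable {ℓ} {χ : DirichletCharacter ℂ M}

theorem DsvLat.sub {h h' : CuspForm (Gamma1 M) 2} (hh : DsvLat χ h) (hh' : DsvLat χ h') :
    DsvLat χ (h - h') :=
  ⟨fun d => by rw [map_sub, hh.1, hh'.1, smul_sub],
    fun n => by rw [dsv_qCoeff_sub]; exact (hh.2 n).sub (hh'.2 n)⟩

theorem DsvLat.add {h h' : CuspForm (Gamma1 M) 2} (hh : DsvLat χ h) (hh' : DsvLat χ h') :
    DsvLat χ (h + h') :=
  ⟨fun d => by rw [map_add, hh.1, hh'.1, smul_add],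
    fun n => by rw [dsv_qCoeff_add]; exact (hh.2 n).add (hh'.2 n)⟩

theorem DsvLat.smul {h : CuspForm (Gamma1 M) 2} (hh : DsvLat χ h) {z : ℂ} (hz : IsIntegral ℤ z) :
    DsvLat χ (z • h) :=
  ⟨fun d => by rw [map_smul, hh.1, smul_comm],
    fun n => by rw [dsv_qCoeff_smul]; exact hz.mul (hh.2 n)⟩

theorem DsvLat.zero : DsvLat χ (0 : CuspForm (Gamma1 M) 2) :=
  ⟨fun d => by rw [map_zero, smul_zero], fun n => by rw [dsv_qCoeff_zero']; exact isIntegral_zero⟩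

theorem DsvNull.add {h h' : CuspForm (Gamma1 M) 2} (hh : DsvNull ℓ χ h) (hh' : DsvNull ℓ χ h') :
    DsvNull ℓ χ (h + h') :=
  ⟨hh.1.add hh'.1, fun n => by
    rw [dsv_qCoeff_add, dsvRedC_add ℓ (hh.1.2 n) (hh'.1.2 n), hh.2, hh'.2, add_zero]⟩

theorem DsvNull.smul {h : CuspForm (Gamma1 M) 2} (hh : DsvNull ℓ χ h) {z : ℂ}
    (hz : IsIntegral ℤ z) : DsvNull ℓ χ (z • h) :=
  ⟨hh.1.smul hz, fun n => by
    rw [dsv_qCoeff_smul, dsvRedC_mul ℓ hz (hh.1.2 n), hh.2, mul_zero]⟩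

theorem DsvNull.zero : DsvNull ℓ χ (0 : CuspForm (Gamma1 M) 2) :=
  ⟨DsvLat.zero, fun n => by rw [dsv_qCoeff_zero', dsvRedC_zero]⟩

variable (ℓ)

/-- the eigenvalue modulo `ℓ` of an operator on `g`, read off from the first coefficient -/
noncomputable def dsvLam (g : CuspForm (Gamma1 M) 2)
    (t : Module.End ℂ (CuspForm (Gamma1 M) 2)) : DslRes ℓ :=
  dsvRedC ℓ (qCoeff (t g) 1) / dsvRedC ℓ (qCoeff g 1)

/-- `t` preserves the lattice and the null forms, and `g` is an eigenvector of `t` modulo `ℓ` -/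
def DsvGood (χ : DirichletCharacter ℂ M) (g : CuspForm (Gamma1 M) 2)
    (t : Module.End ℂ (CuspForm (Gamma1 M) 2)) : Prop :=
  (∀ h, DsvLat χ h → DsvLat χ (t h)) ∧ (∀ h, DsvNull ℓ χ h → DsvNull ℓ χ (t h)) ∧
    ∀ n : ℕ, dsvRedC ℓ (qCoeff (t g) n) = dsvLam ℓ g t * dsvRedC ℓ (qCoeff g n)

variable {ℓ} {g : CuspForm (Gamma1 M) 2}

/-- an operator with an eigenvalue modulo `ℓ` on `g` is good -/
theorem DsvGood.of_eigen (h1 : dsvRedC ℓ (qCoeff g 1) ≠ 0)
    {t : Module.End ℂ (CuspForm (Gamma1 M) 2)}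
    (hL : ∀ h, DsvLat χ h → DsvLat χ (t h)) (hN : ∀ h, DsvNull ℓ χ h → DsvNull ℓ χ (t h))
    (lam : DslRes ℓ) (hlam : ∀ n : ℕ, dsvRedC ℓ (qCoeff (t g) n) = lam * dsvRedC ℓ (qCoeff g n)) :
    DsvGood ℓ χ g t ∧ dsvLam ℓ g t = lam := by
  have h2 : dsvLam ℓ g t = lam := by
    rw [dsvLam, hlam 1, mul_div_assoc, div_self h1, mul_one]
  exact ⟨⟨hL, hN, fun n => by rw [h2]; exact hlam n⟩, h2⟩

theorem DsvGood.one (h1 : dsvRedC ℓ (qCoeff g 1) ≠ 0) :
    DsvGood ℓ χ g (1 : Module.End ℂ (CuspForm (Gamma1 M) 2)) ∧ dsvLam ℓ g 1 = 1 :=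
  DsvGood.of_eigen h1 (fun h hh => by rw [Module.End.one_apply]; exact hh)
    (fun h hh => by rw [Module.End.one_apply]; exact hh) 1 fun n => by
    rw [Module.End.one_apply, one_mul]

theorem DsvGood.add (h1 : dsvRedC ℓ (qCoeff g 1) ≠ 0) (hg : DsvLat χ g)
    {t t' : Module.End ℂ (CuspForm (Gamma1 M) 2)} (ht : DsvGood ℓ χ g t)
    (ht' : DsvGood ℓ χ g t') :
    DsvGood ℓ χ g (t + t') ∧ dsvLam ℓ g (t + t') = dsvLam ℓ g t + dsvLam ℓ g t' :=
  DsvGood.of_eigen h1 (fun h hh => by rw [LinearMap.add_apply]; exact (ht.1 h hh).add (ht'.1 h hh))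
    (fun h hh => by rw [LinearMap.add_apply]; exact (ht.2.1 h hh).add (ht'.2.1 h hh)) _ fun n => by
    rw [LinearMap.add_apply, dsv_qCoeff_add, dsvRedC_add ℓ ((ht.1 g hg).2 n) ((ht'.1 g hg).2 n),
      ht.2.2 n, ht'.2.2 n, add_mul]

theorem DsvGood.algMap (h1 : dsvRedC ℓ (qCoeff g 1) ≠ 0) (hg : DsvLat χ g) (m : ℤ) :
    DsvGood ℓ χ g (algebraMap ℤ (Module.End ℂ (CuspForm (Gamma1 M) 2)) m) ∧
      dsvLam ℓ g (algebraMap ℤ (Module.End ℂ (CuspForm (Gamma1 M) 2)) m)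
        = (m : DslRes ℓ) := by
  have hm : IsIntegral ℤ ((m : ℤ) : ℂ) := by
    have := isIntegral_algebraMap (R := ℤ) (A := ℂ) (x := m)
    simpa using this
  have happ : ∀ h : CuspForm (Gamma1 M) 2,
      (algebraMap ℤ (Module.End ℂ (CuspForm (Gamma1 M) 2)) m) h = ((m : ℤ) : ℂ) • h := by
    intro h
    rw [Algebra.algebraMap_eq_smul_one, LinearMap.smul_apply, Module.End.one_apply,
      Int.cast_smul_eq_zsmul]
  refine DsvGood.of_eigen h1 (fun h hh => by rw [happ]; exact hh.smul hm)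
    (fun h hh => by rw [happ]; exact hh.smul hm) _ fun n => ?_
  rw [happ, dsv_qCoeff_smul, dsvRedC_mul ℓ hm (hg.2 n), dsvRedC_intCast]

theorem DsvGood.mul (h1 : dsvRedC ℓ (qCoeff g 1) ≠ 0) (hg : DsvLat χ g)
    {t t' : Module.End ℂ (CuspForm (Gamma1 M) 2)} (ht : DsvGood ℓ χ g t)
    (ht' : DsvGood ℓ χ g t') :
    DsvGood ℓ χ g (t * t') ∧ dsvLam ℓ g (t * t') = dsvLam ℓ g t * dsvLam ℓ g t' := by
  refine DsvGood.of_eigen h1 (fun h hh => by rw [Module.End.mul_apply]; exact ht.1 _ (ht'.1 h hh))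
    (fun h hh => by rw [Module.End.mul_apply]; exact ht.2.1 _ (ht'.2.1 h hh)) _ fun n => ?_
  -- `h' := a₁(g) • t' g - a₁(t' g) • g` is a null form
  set u : ℂ := qCoeff g 1 with hu
  set v : ℂ := qCoeff (t' g) 1 with hv
  have hui : IsIntegral ℤ u := hg.2 1
  have ht'g : DsvLat χ (t' g) := ht'.1 g hg
  have hvi : IsIntegral ℤ v := ht'g.2 1
  have hv' : dsvRedC ℓ v = dsvLam ℓ g t' * dsvRedC ℓ u := ht'.2.2 1
  have hnull : DsvNull ℓ χ (u • t' g - v • g) := by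
    refine ⟨(ht'g.smul hui).sub (hg.smul hvi), fun m => ?_⟩
    rw [dsv_qCoeff_sub, dsv_qCoeff_smul, dsv_qCoeff_smul,
      dsvRedC_sub ℓ (hui.mul (ht'g.2 m)) (hvi.mul (hg.2 m)), dsvRedC_mul ℓ hui (ht'g.2 m),
      dsvRedC_mul ℓ hvi (hg.2 m), ht'.2.2 m, hv']
    ring
  have h3 := (ht.2.1 _ hnull).2 n
  have htt'g : DsvLat χ (t (t' g)) := ht.1 _ ht'g
  have htg : DsvLat χ (t g) := ht.1 g hg
  rw [map_sub, map_smul, map_smul, dsv_qCoeff_sub, dsv_qCoeff_smul, dsv_qCoeff_smul,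
    dsvRedC_sub ℓ (hui.mul (htt'g.2 n)) (hvi.mul (htg.2 n)), dsvRedC_mul ℓ hui (htt'g.2 n),
    dsvRedC_mul ℓ hvi (htg.2 n), ht.2.2 n, hv'] at h3
  rw [Module.End.mul_apply]
  have h4 : dsvRedC ℓ u * (dsvRedC ℓ (qCoeff (t (t' g)) n)
      - dsvLam ℓ g t * dsvLam ℓ g t' * dsvRedC ℓ (qCoeff g n)) = 0 := by
    linear_combination h3
  rcases mul_eq_zero.mp h4 with h5 | h5
  · exact absurd h5 h1
  · exact sub_eq_zero.mp h5

/-- **the eigensystem modulo `ℓ`** of a form which is an eigenvector modulo `ℓ` of a set of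
operators preserving the lattice and the null forms -/
theorem dsv_exists_theta (h1 : dsvRedC ℓ (qCoeff g 1) ≠ 0) (hg : DsvLat χ g)
    (Gs : Set (Module.End ℂ (CuspForm (Gamma1 M) 2))) (hGs : ∀ t ∈ Gs, DsvGood ℓ χ g t) :
    ∃ θ : Algebra.adjoin ℤ Gs →+* DslRes ℓ,
      (∀ t : Algebra.adjoin ℤ Gs, θ t = dsvLam ℓ g (t : Module.End ℂ (CuspForm (Gamma1 M) 2))) ∧
      ∀ (t : Algebra.adjoin ℤ Gs) (n : ℕ),
        dsvRedC ℓ (qCoeff ((t : Module.End ℂ (CuspForm (Gamma1 M) 2)) g) n)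
          = θ t * dsvRedC ℓ (qCoeff g n) := by
  have hall : ∀ t ∈ Algebra.adjoin ℤ Gs, DsvGood ℓ χ g t := by
    intro t ht
    induction ht using Algebra.adjoin_induction with
    | mem t ht => exact hGs t ht
    | algebraMap m => exact (DsvGood.algMap h1 hg m).1
    | add t t' _ _ h h' => exact (DsvGood.add h1 hg h h').1
    | mul t t' _ _ h h' => exact (DsvGood.mul h1 hg h h').1
  refine ⟨{ toFun := fun t => dsvLam ℓ g (t : Module.End ℂ (CuspForm (Gamma1 M) 2))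
            map_one' := (DsvGood.one (χ := χ) h1).2
            map_mul' := fun t t' => (DsvGood.mul h1 hg (hall t t.2) (hall t' t'.2)).2
            map_zero' := by
              have := (DsvGood.algMap (χ := χ) h1 hg 0).2
              simpa using this
            map_add' := fun t t' => (DsvGood.add h1 hg (hall t t.2) (hall t' t'.2)).2 },
    fun t => rfl, fun t n => (hall t t.2).2.2 n⟩

/-- the diamond operators are good -/
theorem dsv_good_diamond (h1 : dsvRedC ℓ (qCoeff g 1) ≠ 0) (hg : DsvLat χ g) (d : (ZMod M)ˣ) :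
    DsvGood ℓ χ g (dshDiamond 2 M d) ∧
      dsvLam ℓ g (dshDiamond 2 M d) = dsvRedC ℓ (χ (d : ZMod M)) := by
  have hχd : IsIntegral ℤ (χ (d : ZMod M)) := dsv_isIntegral_dirichlet χ _
  refine DsvGood.of_eigen h1 (fun h hh => by rw [hh.1 d]; exact hh.smul hχd)
    (fun h hh => by rw [hh.1.1 d]; exact hh.smul hχd) _ fun n => ?_
  rw [hg.1 d, dsv_qCoeff_smul, dsvRedC_mul ℓ hχd (hg.2 n)]

/-- the coefficients of `T_p h` for `h` in the lattice -/
theorem dsv_qCoeff_T {p : ℕ} (hp : p.Prime) (hpM : ¬ p ∣ M) {h : CuspForm (Gamma1 M) 2}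
    (hh : DsvLat χ h) (n : ℕ) :
    qCoeff (dshTLin 2 hp hpM h) n = qCoeff h (p * n) +
      (p : ℂ) * χ (p : ZMod M) * (if p ∣ n then qCoeff h (n / p) else 0) := by
  rw [qCoeff_dshTLin, hh.1 (dshUnit M hp hpM), coe_dshUnit, mul_comm n p]
  congr 1
  by_cases hpn : p ∣ n
  · rw [if_pos hpn, if_pos hpn, dsv_qCoeff_smul]
    norm_num
    ring
  · rw [if_neg hpn, if_neg hpn, mul_zero]

/-- the Hecke operators `T_p` of which `g` is an eigenvector modulo `ℓ` are good -/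
theorem dsv_good_T (h1 : dsvRedC ℓ (qCoeff g 1) ≠ 0) (hg : DsvLat χ g) {p : ℕ} (hp : p.Prime)
    (hpM : ¬ p ∣ M) (lam : DslRes ℓ)
    (heig : ∀ n : ℕ, dsvRedC ℓ (qCoeff g (p * n) +
      (p : ℂ) * χ (p : ZMod M) * (if p ∣ n then qCoeff g (n / p) else 0))
        = lam * dsvRedC ℓ (qCoeff g n)) :
    DsvGood ℓ χ g (dshTLin 2 hp hpM) ∧ dsvLam ℓ g (dshTLin 2 hp hpM) = lam := by
  have hχp : IsIntegral ℤ (χ (p : ZMod M)) := dsv_isIntegral_dirichlet χ _
  have hpi : IsIntegral ℤ ((p : ℕ) : ℂ) := by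
    have := isIntegral_algebraMap (R := ℤ) (A := ℂ) (x := (p : ℤ))
    simpa using this
  have hite : ∀ (h : CuspForm (Gamma1 M) 2), DsvLat χ h → ∀ n : ℕ,
      IsIntegral ℤ (if p ∣ n then qCoeff h (n / p) else 0) := by
    intro h hh n
    by_cases hpn : p ∣ n
    · rw [if_pos hpn]; exact hh.2 _
    · rw [if_neg hpn]; exact isIntegral_zero
  have hL : ∀ h, DsvLat χ h → DsvLat χ (dshTLin 2 hp hpM h) := by
    intro h hh
    refine ⟨fun d => ?_, fun n => ?_⟩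
    · have h2 := LinearMap.congr_fun (dshTLin_comm_dshDiamond (k := 2) hp hpM d) h
      rw [LinearMap.comp_apply, LinearMap.comp_apply] at h2
      rw [← h2, hh.1 d, map_smul]
    · rw [dsv_qCoeff_T hp hpM hh]
      exact (hh.2 _).add ((hpi.mul hχp).mul (hite h hh n))
  refine DsvGood.of_eigen h1 hL (fun h hh => ⟨hL h hh.1, fun n => ?_⟩) lam fun n => ?_
  · rw [dsv_qCoeff_T hp hpM hh.1, dsvRedC_add ℓ (hh.1.2 _) ((hpi.mul hχp).mul (hite h hh.1 n)),
      dsvRedC_mul ℓ (hpi.mul hχp) (hite h hh.1 n), hh.2]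
    by_cases hpn : p ∣ n
    · rw [if_pos hpn, hh.2, mul_zero, add_zero]
    · rw [if_neg hpn, dsvRedC_zero, mul_zero, add_zero]
  · rw [dsv_qCoeff_T hp hpM hg]
    exact heig n

end lattice

end Fermat.Agent.DS
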